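import Fermat.Agent.BAD.AtP.BridgeW0
import Fermat.Agent.BAD.AtP.BridgePush

/-!
# Eigen systems away from one unramified prime

If `rb` is unramified at `q ∤ M` and the traces of `rb` at the good primes other than `q` vanish on
the relations of the Hecke operators of `J₀(M)`, then `rb` is modular of level `M`: the eigen
classes killed by `p` satisfy the Eichler-Shimura relation at `q`, which gives the value of `T q`.
-/

set_option autoImplicit false

noncomputable section

open ModularCurve

namespace Fermat.BAD.AtQ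

open Fermat.GR Fermat.GR.RT Fermat.CFT Fermat.BAD.AtP
open Fermat.JAC Fermat.JAC.X0

local notation "Γℚ" => (AlgebraicClosure ℚ ≃ₐ[ℚ] AlgebraicClosure ℚ)

variable {p : ℕ} [Fact p.Prime] {rb : Γℚ →* GL (Fin 2) (ZMod p)}

local notation "M2p" => Matrix (Fin 2) (Fin 2) (ZMod p)

/-- Relations divisible by `p` on the lattice have value zero, when all relations do. -/
theorem trEval_eq_zero_of_lattice {M N : ℕ} [NeZero N] (hN : N ∣ M * p) (D : ESLattice N p)
    (hann : ∀ P : MvPolynomial (GoodPrime rb M) ℤ, hecBar N P = 0 → trEval rb M P = 0)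
    {P : MvPolynomial (GoodPrime rb M) ℤ}
    (hP : ∀ l : D.Λ, ∃ m : D.Λ, p • m = hecT N hN P • l) : trEval rb M P = 0 := by
  obtain ⟨q, hq, hqc, h0⟩ := exists_monic_of_divisible hN D hP
  have h2 : trEval rb M (Polynomial.aeval P q) = 0 := hann _ (hecBar_eq_zero_of_hecT N hN h0)
  refine eq_zero_of_monic_root (p := p) hq hqc ?_
  rw [← h2]
  exact Polynomial.aeval_algHom_apply (trEval rb M).toIntAlgHom P q

/-- **The eigen classes are not all zero**, when the values vanish on all relations. -/
theorem eigenP_ne_bot_of_annihilator {M N : ℕ} [NeZero N] (hN : N ∣ M * p) (D : ESInput N p)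
    (hann : ∀ P : MvPolynomial (GoodPrime rb M) ℤ, hecBar N P = 0 → trEval rb M P = 0) :
    eigenP rb M N ≠ ⊥ :=
  eigenP_ne_bot_of_trEval N hN D fun _ hP => trEval_eq_zero_of_lattice hN D.toESLattice hann hP

/-- **Modularity from the relations at the primes other than `q`.** -/
theorem modularOf_of_annihilator_away {M q : ℕ} [NeZero M] (hrb : IsSemistableResidual p rb)
    (hq : q.Prime) (hqM : ¬ q ∣ M) (hqp : q ≠ p) (hu : IsResUnramified p rb q)
    (hann : ∀ P : MvPolynomial (GoodPrime rb (M * q)) ℤ, hecBar M P = 0 → trEval rb (M * q) P = 0) :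
    ModularOf p rb M := by
  have hN : M ∣ M * q * p := (dvd_mul_right M q).mul_right p
  obtain ⟨D⟩ := Fermat.GR.hasESInput M p
  obtain ⟨⟨x, hx⟩, hx0⟩ := (eigenP rb (M * q) M).ne_bot_iff_exists_ne_zero.mp
    (eigenP_ne_bot_of_annihilator hN D hann)
  have hqMp : ¬ q ∣ M * p := fun h => (hq.dvd_mul.mp h).elim hqM fun h' =>
    hqp ((Nat.prime_dvd_prime_iff_eq hq Fact.out).mp h')
  -- Eichler-Shimura at `q` gives the eigenvalue of `T q` on an eigen class
  obtain ⟨A, hA⟩ := exists_place hq
  obtain ⟨φ, hφ⟩ := CFT.exists_isFrobeniusAt hq hA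
  set y := φ⁻¹ • x
  have hy : y ∈ eigenP rb (M * q) M := smul_mem_eigenP M φ⁻¹ hx
  have hTq : heckeOperatorBar M ⟨q, hq⟩ x = (trFrob rb q).val • x := by
    have h1 := D.frobenius_quadratic q hq hqMp A hA φ hφ y ⟨1, by rw [pow_one]; exact hy.1⟩
    have h2 := relation_eigenP M (mul_ne_zero (NeZero.ne M) hq.ne_zero) hrb D φ hy
    have hd : (rb φ : M2p).det = (q : ZMod p) := by
      rw [hrb.det_eq, cycChar_frobenius hq hqp hA hφ]
    rw [show φ • y = x from smul_inv_smul φ x] at h1 h2
    have e : (q : ZMod p).val • y = q • y := by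
      rw [ZMod.val_natCast, ← nsmul_eq_mod_nsmul _ hy.1]
    rw [← trFrob_eq hq hu hA hφ, hd, e] at h2
    have h3 := h1.trans h2.symm
    rw [add_left_inj, sub_right_inj] at h3
    exact h3
  refine modularOf_of_eigen (x := x) (fun h => hx0 (Subtype.ext h)) hx.1 fun i => ?_
  by_cases hi : i.1 = q
  · rw [show i.toPrimes = (⟨q, hq⟩ : Nat.Primes) from Subtype.ext hi, hi]
    exact hTq
  · refine hx.2 ⟨i.1, i.2.1, fun h => ?_, i.2.2.2⟩
    rcases i.2.1.dvd_mul.mp h with h' | h'
    · exact (i.2.1.dvd_mul.mp h').elim i.not_dvd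
        fun h'' => hi ((Nat.prime_dvd_prime_iff_eq i.2.1 hq).mp h'')
    · exact i.not_dvd_mul (dvd_mul_of_dvd_right h' M)

/-- An eigen class away from `q` gives modularity. -/
theorem modularOf_of_eigen_away {M q : ℕ} [NeZero M] (hrb : IsSemistableResidual p rb)
    (hq : q.Prime) (hqM : ¬ q ∣ M) (hqp : q ≠ p) (hu : IsResUnramified p rb q) {x : JZero M}
    (hx0 : x ≠ 0) (hpx : p • x = 0)
    (hx : ∀ i : GoodPrime rb (M * q),
      heckeOperatorBar M i.toPrimes x = (trFrob rb i.1).val • x) : ModularOf p rb M := by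
  refine modularOf_of_annihilator_away hrb hq hqM hqp hu fun P hP => ?_
  by_contra hne
  have : NeZero (M * q) := ⟨mul_ne_zero (NeZero.ne M) hq.ne_zero⟩
  have h1 : (trEval rb (M * q) P).val • x = 0 := by
    have := hecBar_apply_of_eigen hpx hx P
    rw [hP, LinearMap.zero_apply] at this
    exact this.symm
  exact hx0 (eq_zero_of_val_nsmul hpx hne h1)

/-- **Both pushforwards `J₀(M q) → J₀(M)` kill the eigen classes.** -/
theorem push_eq_zero_away {M q : ℕ} [NeZero M] [NeZero q] [NeZero (M * q)]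
    (hrb : IsSemistableResidual p rb) (hq : q.Prime) (hqM : ¬ q ∣ M) (hqp : q ≠ p)
    (hu : IsResUnramified p rb q)
    (hmod : ¬ ModularOf p rb M) {x : JZero (M * q)} (hpx : p • x = 0)
    (hx : ∀ i : GoodPrime rb (M * q),
      heckeOperatorBar (M * q) i.toPrimes x = (trFrob rb i.1).val • x) :
    pushPic (heckeAlphaBar Qbar M q) x = 0 ∧
      pushPic (heckeBetaBar Qbar M q) x = 0 := by
  constructor
  · by_contra h0
    exact hmod (modularOf_of_eigen_away hrb hq hqM hqp hu h0 (by rw [← map_nsmul, hpx, map_zero])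
      fun i => by rw [← pushAlpha_heckeOperatorBar M q _ i.not_dvd, hx i, map_nsmul])
  · by_contra h0
    exact hmod (modularOf_of_eigen_away hrb hq hqM hqp hu h0 (by rw [← map_nsmul, hpx, map_zero])
      fun i => by rw [← pushBeta_heckeOperatorBar M q _ i.not_dvd, hx i, map_nsmul])

end Fermat.BAD.AtQ
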