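import Fermat.Agent.BAD.AtP.Group

/-!
# An element acting as a scalar on a quadratic group has scalar image

`eq_bot_of_scalar_sq`, the last step of `Engine`: for a surjective residual representation an
element of determinant `q ≠ 1` acting as `± q` on a quadratic group forces the group to be zero.
-/

set_option autoImplicit false

noncomputable section

namespace Fermat.BAD.AtQ

open Matrix Fermat.BAD.AtP

variable {G V : Type*} [Group G] [AddCommGroup V] [DistribMulAction G V] {p : ℕ} [Fact p.Prime]
  {rb : G →* GL (Fin 2) (ZMod p)}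

local notation "M2p" => Matrix (Fin 2) (Fin 2) (ZMod p)

/-- **A scalar action comes from a scalar image.** -/
theorem eq_smul_one_of_scalar (hs : Function.Surjective rb) {W : AddSubgroup V}
    (hW : IsQuadratic rb W) (hne : W ≠ ⊥) {γ : G} {a : ZMod p}
    (hscal : ∀ x ∈ W, γ • x = a.val • x) : (rb γ : M2p) = a • (1 : M2p) := by
  set g : M2p := (rb γ : M2p)
  -- every commutator with `γ` fixes `W`, so has trace two
  have key : ∀ h : GL (Fin 2) (ZMod p),
      ((h : M2p) * g * (↑h⁻¹ : M2p) * g.adjugate).trace = 2 * g.det := by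
    intro h
    obtain ⟨τ, hτ⟩ := hs h
    set δ := τ * γ * τ⁻¹ * γ⁻¹
    have hfix : ∀ x ∈ W, δ • x = (1 : ZMod p).val • x := fun x hx => by
      rw [ZMod.val_one, one_nsmul, mul_smul, mul_smul, mul_smul,
        hscal _ (hW.stable _ _ (hW.stable _ _ hx)), smul_nsmul_comm, smul_inv_smul,
        ← hscal _ (hW.stable _ _ hx), smul_inv_smul]
    have h1 := charpoly_root_of_scalar rb hW hne hfix
    have hd : (rb δ : M2p).det = 1 := by
      simp only [δ, map_mul, map_inv, Units.val_mul, Matrix.det_mul]
      have e : ∀ u : GL (Fin 2) (ZMod p), (u : M2p).det * (↑u⁻¹ : M2p).det = 1 := fun u => by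
        rw [← Matrix.det_mul, u.mul_inv, Matrix.det_one]
      linear_combination (e (rb γ)) + ((rb γ : M2p).det * (↑(rb γ)⁻¹ : M2p).det) * (e (rb τ))
    rw [hd] at h1
    have ht : (rb δ : M2p).trace = 2 := by linear_combination -h1
    have hinv : g.adjugate = g.det • (↑(rb γ)⁻¹ : M2p) := by
      have e1 : g * g.adjugate = g.det • (1 : M2p) := Matrix.mul_adjugate g
      calc g.adjugate = (↑(rb γ)⁻¹ : M2p) * (g * g.adjugate) := by
            rw [← mul_assoc, Units.inv_mul, one_mul]
        _ = _ := by rw [e1, mul_smul_comm, mul_one]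
    rw [hinv, mul_smul_comm, Matrix.trace_smul, smul_eq_mul]
    simp only [δ, map_mul, map_inv, Units.val_mul, hτ] at ht
    rw [ht, mul_comm]
  let up : GL (Fin 2) (ZMod p) := ⟨!![1, 1; 0, 1], !![1, -1; 0, 1],
    by simp [Matrix.one_fin_two], by simp [Matrix.one_fin_two]⟩
  let lo : GL (Fin 2) (ZMod p) := ⟨!![1, 0; 1, 1], !![1, 0; -1, 1],
    by simp [Matrix.one_fin_two], by simp [Matrix.one_fin_two]⟩
  let w : GL (Fin 2) (ZMod p) := ⟨!![0, 1; 1, 0], !![0, 1; 1, 0],
    by simp [Matrix.one_fin_two], by simp [Matrix.one_fin_two]⟩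
  -- conjugates by two transvections and the swap: `g` is diagonal with equal entries
  have h10 : g 1 0 = 0 := by
    have := key up
    simp only [up, Units.inv_mk, Matrix.trace_fin_two, Matrix.mul_apply, Fin.sum_univ_two,
      Matrix.adjugate_fin_two, Matrix.det_fin_two] at this
    simp at this
    exact sq_eq_zero_iff.mp (by linear_combination this)
  have h01 : g 0 1 = 0 := by
    have := key lo
    simp only [lo, Units.inv_mk, Matrix.trace_fin_two, Matrix.mul_apply, Fin.sum_univ_two,
      Matrix.adjugate_fin_two, Matrix.det_fin_two] at this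
    simp at this
    exact sq_eq_zero_iff.mp (by linear_combination this)
  have heq : g 0 0 = g 1 1 := by
    have := key w
    simp only [w, Units.inv_mk, Matrix.trace_fin_two, Matrix.mul_apply, Fin.sum_univ_two,
      Matrix.adjugate_fin_two, Matrix.det_fin_two] at this
    simp [h10, h01] at this
    exact sub_eq_zero.mp (sq_eq_zero_iff.mp (by linear_combination this))
  have hg : g = g 0 0 • (1 : M2p) := by
    ext i j
    fin_cases i <;> fin_cases j <;> simp [h10, h01, heq]
  have h2 := charpoly_root_of_scalar rb hW hne hscal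
  rw [show (rb γ : M2p) = g from rfl, hg, Matrix.trace_smul, Matrix.det_smul, Matrix.trace_one,
    Matrix.det_one, mul_one, Fintype.card_fin, smul_eq_mul] at h2
  have ha : a = g 0 0 := sub_eq_zero.mp
    (sq_eq_zero_iff.mp (by push_cast at h2; linear_combination h2))
  rw [ha]
  exact hg

/-- An element acting as `± q` with determinant `q ≠ 1` acts on nothing. -/
theorem eq_bot_of_scalar_sq (hs : Function.Surjective rb) {W : AddSubgroup V}
    (hW : IsQuadratic rb W) {γ : G} {a q : ZMod p} (hdet : (rb γ : M2p).det = q) (hq1 : q ≠ 1)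
    (ha : a * a = q * q) (hscal : ∀ x ∈ W, γ • x = a.val • x) : W = ⊥ := by
  by_contra hne
  have h := eq_smul_one_of_scalar hs hW hne hscal
  rw [h, Matrix.det_smul, Matrix.det_one, mul_one, Fintype.card_fin] at hdet
  have hq : q ≠ 0 := by
    rw [← hdet]
    intro h0
    have := congrArg Matrix.det h
    rw [Matrix.det_smul, Matrix.det_one, mul_one, Fintype.card_fin, h0] at this
    exact Matrix.det_ne_zero_of_left_inverse (rb γ).inv_mul this
  exact hq1 (mul_left_cancel₀ hq (by linear_combination hdet - ha))

end Fermat.BAD.AtQ
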