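import Fermat.Agent.BAD.AtQ.Away
import Fermat.Agent.BAD.AtP.EigenModular
import Fermat.Agent.BAD.Engine.Mul
import Fermat.Agent.BAD.AtP.PhiCore

/-!
# Divisors fixed by an automorphism, bounded representatives, eigen classes of the reduced curve

Lemmas for `Engine`: a fixed class has a fixed divisor (`exists_fixed_divisor`), classes have
bounded representatives, and an eigen class on the reduced curve of level `M` makes the system
modular of level `M` (`modularOf_of_redEigen_away`, through `Away`).
-/

set_option autoImplicit false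

attribute [local instance 10000] SubalgebraClass.toAlgebra HahnSeries.powerSeriesAlgebra

noncomputable section

open AlgebraicCurve ModularCurve
open scoped Pointwise

namespace Fermat.BAD.AtQ

open Fermat.GR.RT Fermat.BAD.AtP Fermat.FF

local notation "Γℚ" => (AlgebraicClosure ℚ ≃ₐ[ℚ] AlgebraicClosure ℚ)

variable {p : ℕ} [Fact p.Prime] {rb : Γℚ →* GL (Fin 2) (ZMod p)}

section Fixed

variable {L F : Type*} [Field L] [IsAlgClosed L] [Field F] [Algebra L F] [FF.IsFunctionField L F]

/-- **A fixed class has a fixed divisor**, given a fixed place. -/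
theorem exists_fixed_divisor (g : SemilinearAut L F) {o : Place L F} (ho : g • o = o)
    {x : Pic0 L F} (hx : g • x = x) : ∃ D, IsCls D x ∧ g • D = D := by
  classical
  obtain ⟨D, hD⟩ := exists_isCls x
  have hdeg : ∀ r : ℕ, Divisor.degree (D + Finsupp.single o (r : ℤ)) = r := fun r => by
    rw [map_add, Divisor.degree_single, deg_eq_one, Divisor.mem_degZero.mp hD.choose]; simp
  have hex : ∃ r : ℕ, ell (D + Finsupp.single o (r : ℤ)) ≠ 0 := ⟨genusFF L F, fun h => by
    have := FF.riemann_inequality (D + Finsupp.single o (genusFF L F : ℤ))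
    rw [hdeg, h] at this
    omega⟩
  set r := Nat.find hex
  have hr : ell (D + Finsupp.single o (r : ℤ)) ≠ 0 := Nat.find_spec hex
  have hr1 : ell (D + Finsupp.single o (r : ℤ)) = 1 := by
    rcases Nat.eq_zero_or_pos r with h0 | hpos
    · obtain ⟨f', hf', he⟩ := FF.ell_eq_one_of_degree_zero (by rw [hdeg, h0]; rfl) hr
      rw [he, ← zero_add (divOf L f'), FF.ell_add_divOf _ hf', FF.ell_zero]
    · have hm := Nat.find_min hex (m := r - 1) (by omega)
      rw [ne_eq, not_not] at hm
      have h1 := FF.ell_add_le (D + Finsupp.single o ((r - 1 : ℕ) : ℤ))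
        (E := Finsupp.single o (1 : ℤ)) (by simp)
      rw [add_assoc, ← Finsupp.single_add, hm, Divisor.degree_single, deg_eq_one,
        show (((r - 1 : ℕ) : ℤ) + 1) = (r : ℤ) by omega] at h1
      omega
  obtain ⟨f, hf0, hf⟩ := FF.exists_effective_of_ell_ne_zero hr
  -- `E`, the only effective divisor in its class, is fixed, so its part `D₁` is
  set E := D + Finsupp.single o (r : ℤ) + divOf L f with hE
  have hEell : ell E = 1 := by rw [hE, FF.ell_add_divOf _ hf0, hr1]
  set D₁ := D + divOf L f
  have hD₁ : IsCls D₁ x := hD.add_divOf hf0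
  have hgs : g • (Finsupp.single o (r : ℤ) : Divisor L F) = Finsupp.single o (r : ℤ) := by
    rw [SemilinearAut.divisor_smul_def]
    change Finsupp.mapDomain _ _ = _
    rw [Finsupp.mapDomain_single, ho]
  have hsum := (hD₁.smul g).add hD₁.neg
  rw [hx, add_neg_cancel] at hsum
  obtain ⟨hd, hcl⟩ := hsum
  obtain ⟨h, hh0, hhv⟩ := AddSubgroup.mem_addSubgroupOf.mp ((QuotientAddGroup.eq_zero_iff _).mp hcl)
  have hhd : divOf L h = g • D₁ + -D₁ :=
    Finsupp.ext fun v => by rw [divOf_apply]; exact (hhv v).symm
  have hED : E = D₁ + Finsupp.single o (r : ℤ) := by simp only [hE, D₁]; abel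
  have hgE : g • E = E + divOf L h := by rw [hhd, hED, smul_add, hgs]; abel
  have hmem : h ∈ riemannRochSpace E := by
    rw [mem_riemannRochSpace]
    intro v
    rw [ordGE_iff_of_ne hh0]
    have h1 : 0 ≤ (g • E) v := by
      rw [SemilinearAut.divisor_smul_apply]
      simpa using Finsupp.le_def.mp hf _
    rw [hgE, Finsupp.add_apply, divOf_apply] at h1
    omega
  have h1mem : (1 : F) ∈ riemannRochSpace E := by
    rw [mem_riemannRochSpace]
    intro v
    exact (ordGE_one v).mono (by have := Finsupp.le_def.mp hf v; simp at this ⊢; omega)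
  obtain ⟨c, hc⟩ := exists_smul_eq_of_finrank_eq_one (K := L) hEell
    (x := ⟨1, h1mem⟩) (fun h' => one_ne_zero (congrArg Subtype.val h')) ⟨h, hmem⟩
  have hc' : algebraMap L F c = h := by
    have := congrArg Subtype.val hc
    simpa [Algebra.smul_def] using this
  refine ⟨D₁, hD₁, ?_⟩
  have hzero : g • D₁ + -D₁ = 0 := by
    rw [← hhd, ← hc']
    ext v
    rw [divOf_apply, FF.ord_algebraMap]
    rfl
  rwa [add_neg_eq_zero] at hzero

/-- **A representative below a multiple of an effective divisor of positive degree.** -/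
theorem exists_cls_le {x : Pic0 L F} {B : Divisor L F} (hB : 0 < Divisor.degree B) :
    ∃ (l : ℕ) (D : Divisor L F), IsCls D x ∧ ∀ v, D v ≤ (l : ℤ) * B v := by
  obtain ⟨D, hD⟩ := exists_isCls x
  set l := genusFF L F
  have hl : ell (l • B + -D) ≠ 0 := by
    have h1 := FF.riemann_inequality (l • B + -D)
    rw [map_add, map_neg, map_nsmul, Divisor.mem_degZero.mp hD.choose, nsmul_eq_mul] at h1
    intro h0
    rw [h0] at h1
    push_cast at h1
    nlinarith
  obtain ⟨f, hf0, hf⟩ := FF.exists_effective_of_ell_ne_zero hl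
  refine ⟨l, D + divOf L f⁻¹, hD.add_divOf (inv_ne_zero hf0), fun v => ?_⟩
  have := Finsupp.le_def.mp hf v
  simp [divOf_apply, Place.ord_inv] at this ⊢
  omega

end Fixed

section Bounded

variable {L : Type*} [Field L] {A : ValuationSubring L}
variable {k : Type*} [Field k] [IsAlgClosed L] [IsAlgClosed k]
variable {F : Type*} [Field F] [Algebra L F]
variable {π : A →+* k} {ι : Bool → F →+* LaurentSeries L}
  {K : IntermediateField k (LaurentSeries k)}
variable [FF.IsFunctionField L F] [FF.IsFunctionField k K]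

open Fermat.RED.Model

/-- The inverse of a function below a multiple of `A0` has integral expansions. -/
theorem inv_int_of_le (X : Degen π ι K) {n l : ℕ} {D : Divisor L F} {y : F} (hy : y ≠ 0)
    (hdiv : divOf L y = n • D) (hle : ∀ v, D v ≤ (l : ℤ) * X.A0 v) {b : Bool} {c : L}
    (hp : X.Prim b (c • y)) : ι b (c • y)⁻¹ ∈ intSeries A := by
  have hne := hp.ne_zero
  have hc : c ≠ 0 := fun h => hne (by rw [h, zero_smul])
  have hmem : (c • y)⁻¹ ∈ riemannRochSpace ((n * l) • X.A0) := by
    rw [mem_riemannRochSpace]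
    intro v
    refine (ordGE_iff_of_ne (inv_ne_zero hne)).mpr ?_
    rw [v.ord_inv, Algebra.smul_def, v.ord_mul ((_root_.map_ne_zero _).mpr hc) hy,
      FF.ord_algebraMap,
      zero_add, show v.ord y = (n : ℤ) * D v by rw [← divOf_apply (K := L), hdiv]; simp]
    simp only [Finsupp.smul_apply, nsmul_eq_mul, Nat.cast_mul]
    nlinarith [hle v, Int.natCast_nonneg n]
  exact X.series_int_of_mem (X.prim_inv hp).1.1 hmem

end Bounded

open Fermat.RED Fermat.BAD.Corr in
/-- **An eigen class away from `q` of the reduced curve gives modularity.** -/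
theorem modularOf_of_redEigen_away {M : ℕ} [NeZero M] {A : ValuationSubring (AlgebraicClosure ℚ)}
    {q : ℕ} (hrb : IsSemistableResidual p rb) (hq : q.Prime) (hA : A.LiesOverPrime q)
    (hqM : ¬ q ∣ M) (hqp : q ≠ p) (hu : IsResUnramified p rb q)
    [IsAlgClosed (IsLocalRing.ResidueField A)]
    [IsFunctionField (IsLocalRing.ResidueField A)
      (modularFunctionFieldFullC (IsLocalRing.ResidueField A) M)]
    {z : Pic0 (IsLocalRing.ResidueField A)
      (modularFunctionFieldFullC (IsLocalRing.ResidueField A) M)}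
    (hz0 : z ≠ 0) (hpz : p • z = 0)
    (hz : ∀ (i : GoodPrime rb (M * q)) [NeZero i.1] [IsFunctionField (IsLocalRing.ResidueField A)
        (modularFunctionFieldFullC (IsLocalRing.ResidueField A) (M * i.1))],
      tbarMPic (IsLocalRing.ResidueField A) M i.1 z = (trFrob rb i.1).val • z) :
    ModularOf p rb M := by
  obtain ⟨r, hr⟩ := exists_seriesReduction_modL M hq hqM A hA
  have hne : ∀ i : GoodPrime rb (M * q), i.1 ≠ q := fun i e => i.2.2.1 (by
    rw [e]; exact (dvd_mul_left q M).mul_right p)
  have hiM : ∀ i : GoodPrime rb (M * q), ¬ i.1 ∣ M := fun i h => i.2.2.1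
    ((h.mul_right q).mul_right p)
  have hfn : ∀ i : GoodPrime rb (M * q), IsFunctionField (IsLocalRing.ResidueField A)
      (modularFunctionFieldFullC (IsLocalRing.ResidueField A) (M * i.1)) := fun i => by
    have : NeZero i.1 := ⟨i.2.1.ne_zero⟩
    exact Fermat.RED.Cusps.isFunctionField (natCast_mul_ne_zero hq hA i.2.1 (hne i) hqM)
  refine modularOf_of_annihilator_away hrb hq hqM hqp hu fun P hP => ?_
  refine trEval_eq_zero_of_image_eigen (redPic hr) (redPic_surjective hr)
    (fun i => haveI : NeZero i.1 := ⟨i.2.1.ne_zero⟩; haveI := hfn i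
      tbarMPic (IsLocalRing.ResidueField A) M i.1) (fun i x => ?_) hz0 hpz (fun i => ?_) hP
  · have : NeZero i.1 := ⟨i.2.1.ne_zero⟩
    have := hfn i
    exact redPic_heckeT hq hA i.2.1 (hne i) hqM (hiM i) hr x
  · have : NeZero i.1 := ⟨i.2.1.ne_zero⟩
    have := hfn i
    exact hz i

end Fermat.BAD.AtQ
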