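import Fermat.Agent.BAD.AtQ.Tame
import Fermat.Agent.BAD.AtQ.Tools
import Fermat.Agent.BAD.AtQ.Scalar
import Fermat.Agent.BAD.AtP.Powers
import Fermat.Agent.BAD.AtP.PhiHecke
import Fermat.Agent.BAD.AtP.PhiFalse
import Fermat.Agent.BAD.Engine.Theorems
import Fermat.Agent.BAD.Mono.Congr
import Fermat.Agent.BAD.Inst.Galois
import Fermat.Agent.BAD.X0.Degen

/-!
# Mazur's principle at `q ≠ p`: the eigen group is zero

`eq_bot_of_eigen`: a `p`-torsion class of `J₀(M q)` fixed by inertia at `q` and eigen for the Hecke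
operators away from `q`, of a system which is not modular of level `M`, has a presentation whose two
reductions are `p`-th powers (`hasWit_of_eigen`).  A Frobenius `φ` then acts on it as `-q w`, so as
`± q` on the parts where the Atkin-Lehner involution `w` is `± 1`; its determinant being `q ≠ 1`,
these are zero (`Scalar`). `Step` draws the conclusion on levels.
-/

set_option autoImplicit false
set_option linter.unusedSectionVars false

attribute [local instance 10000] SubalgebraClass.toAlgebra HahnSeries.powerSeriesAlgebra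

noncomputable section

open ModularCurve AlgebraicCurve

namespace Fermat.BAD.AtQ

open Fermat.MC Fermat.BAD.X0 Fermat.GR.RT Fermat.BAD.AtP

local notation "Qb" => AlgebraicClosure ℚ
local notation "Γℚ" => (AlgebraicClosure ℚ ≃ₐ[ℚ] AlgebraicClosure ℚ)

variable {M q : ℕ} [NeZero M] [NeZero q] [Fact q.Prime] {hq : q.Prime} {hqM : ¬ q ∣ M}
variable [FF.IsFunctionField Qb (FN (M * q) Qb)] [FF.IsFunctionField Qb (FN M Qb)]
variable {A : ValuationSubring (AlgebraicClosure ℚ)}
  [IsAlgClosed (IsLocalRing.ResidueField A)] [CharP (IsLocalRing.ResidueField A) q]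
  [FF.IsFunctionField (IsLocalRing.ResidueField A)
    (modularFunctionFieldFullC (IsLocalRing.ResidueField A) M)]

local notation "kA" => IsLocalRing.ResidueField A

variable {X : Degen (IsLocalRing.residue A) (emb M q hq hqM)
  (modularFunctionFieldFullC (IsLocalRing.ResidueField A) M)}
variable {p : ℕ} [Fact p.Prime] {rb : Γℚ →* GL (Fin 2) (ZMod p)}

/-- The class has a presentation whose two reductions are `p`-th powers. -/
def HasWit (X : Degen (IsLocalRing.residue A) (emb M q hq hqM)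
    (modularFunctionFieldFullC (IsLocalRing.ResidueField A) M)) (p : ℕ) (x : JZero (M * q)) :
    Prop :=
  ∃ (D : Divisor Qb (modularFunctionFieldBar (M * q))) (y : modularFunctionFieldBar (M * q))
    (H : Bool → modularFunctionFieldFullC kA M), IsCls D x ∧ X.Wit p D y H

/-- **An eigen class fixed by inertia has power reductions**, off modularity of level `M`. -/
theorem hasWit_of_eigen (hrb : IsSemistableResidual p rb) (hp2 : p ≠ 2) (hqp : q ≠ p)
    (hu : IsResUnramified p rb q) (hA : A.LiesOverPrime q) (hS : X.S = SS M q hq hqM hA)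
    (h12 : ∀ s ∈ SS M q hq hqM hA, s.ord (hbar M q hq hqM hA) = 12) (hN : X.Node (q : Qb))
    (hin : ∀ σ ∈ A.inertiaSubgroupIn ℚ, ∃ Θ : Sym X, Θ.s = galAut M q σ ∧ Θ.e = Equiv.refl Bool ∧
      ∀ b, Θ.τ b = 1)
    (hmod : ¬ ModularOf p rb M) {V : AddSubgroup (JZero (M * q))} (hV : IsQuadratic rb V)
    (hT : ∀ i : GoodPrime rb (M * q), ∀ x ∈ V,
      heckeOperatorBar (M * q) i.toPrimes x = (trFrob rb i.1).val • x)
    {x : JZero (M * q)} (hx : x ∈ V) : HasWit X p x := by
  classical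
  have hp : p.Prime := Fact.out
  have hn : p ≠ 0 := hp.ne_zero
  have hq0 : (q : Qb) ≠ 0 := Nat.cast_ne_zero.mpr hq.ne_zero
  obtain ⟨σ, hσI, r, hr, hσ, hrp, hprim⟩ := exists_tame hp hq hqp hA
  obtain ⟨Θ, hΘs, hΘe, hΘτ⟩ := hin σ hσI
  have hfix : Θ.s • x = x := by
    rw [hΘs]
    exact hV.ker_fixed σ (hu A hA σ hσI) x hx
  obtain ⟨D, hD, hDfix⟩ := exists_fixed_divisor Θ.s (o := Inst.inf M q)
    (by rw [hΘs]; exact Inst.galAut_inf M q σ) hfix
  have hpx := hV.torsion x hx
  obtain ⟨y, hy, hdiv⟩ := hD.exists_div hpx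
  obtain ⟨c1, -, h1⟩ := X.exists_smul_prim true hy
  obtain ⟨c0, -, h0⟩ := X.exists_smul_prim false hy
  have hσ' : ∀ c, c ≠ 0 → SemilinearAut.baseAut Θ.s c / c ∈ A := fun c hc => by
    rw [hΘs]
    exact hσ c hc
  have hchar : tameChar (IsLocalRing.residue A) (SemilinearAut.baseAut Θ.s) hσ' r hr =
      tameChar (IsLocalRing.residue A) σ hσ r hr :=
    congrArg (IsLocalRing.residue A) (Subtype.ext (by
      change SemilinearAut.baseAut Θ.s r / r = σ r / r
      rw [hΘs]
      rfl))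
  -- the presentation fixed by inertia has congruent orders at the glued points
  have hres := Degen.residues_of_fixed Θ hΘe hΘτ hσ' hDfix hn hq0 hN hr hrp (hchar ▸ hprim) hy hdiv
    h1 h0
  obtain ⟨-, hoff, -⟩ := X.exc_eq hn hq0 hN hy hdiv h1 h0
  -- a bounded presentation
  obtain ⟨l₀, D', hD', hle⟩ := exists_cls_le (x := x) (B := X.A0) (by
    rw [X.deg_A0]; linarith [X.deg_B_pos])
  obtain ⟨y', hy', hdiv'⟩ := hD'.exists_div hpx
  obtain ⟨a1, -, g1⟩ := X.exists_smul_prim true hy'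
  obtain ⟨a0, -, g0⟩ := X.exists_smul_prim false hy'
  have hrep : X.Rep p true x D' y' a1 := ⟨hD', hy', hdiv', g1⟩
  set H := X.red true (a1 • y') with hH
  have hH0 : H ≠ 0 := hrep.red_ne
  have hpow := Degen.Rep.unique hn (⟨hD, hy, hdiv, h1⟩ : X.Rep p true x D y c1) hrep
  have hoff' : ∀ v : Place kA (modularFunctionFieldFullC kA M), v ∉ X.S → (p : ℤ) ∣ v.ord H := by
    intro v hv
    have := dvd_add (hpow.dvd_ord h1.2 v) (hoff v hv)
    rwa [sub_add_cancel] at this
  -- its orders are all divisible by `p`: congruent on `S`, with an eigenvalue other than `ℓ + 1`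
  have hall : ∀ v : Place kA (modularFunctionFieldFullC kA M), (p : ℤ) ∣ v.ord H := by
    by_cases hne : X.S = ∅
    · exact fun v => hoff' v (by rw [hne]; exact Finset.notMem_empty v)
    obtain ⟨s₀, hs₀⟩ := Finset.nonempty_of_ne_empty hne
    obtain ⟨i, hi⟩ := exists_good_prime_ne (lt_of_le_of_ne hp.two_le (Ne.symm hp2)) hrb (M * q)
    have : NeZero i.1 := ⟨i.2.1.ne_zero⟩
    have hlN : ¬ i.1 ∣ M * q := fun h => i.2.2.1 (h.mul_right p)
    refine dvd_ord_all_of_prime hA hp hS h12 hH0 hoff' hs₀ (fun s hs => ?_) i.2.1 hlN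
      (powEq_nbar hA hrep hn i.2.1 hlN (hT i x hx)) (by rw [ZMod.natCast_zmod_val]; exact hi)
    have e1 := _root_.dvd_sub (hres s hs s₀ hs₀) (hres s₀ hs₀ s₀ hs₀)
    rw [add_sub_add_right_eq_sub] at e1
    have e2 := dvd_add (dvd_add e1 (hpow.dvd_ord h1.2 s)) (dvd_neg.mpr (hpow.dvd_ord h1.2 s₀))
    have e3 : s.ord (X.red true (c1 • y)) - s₀.ord (X.red true (c1 • y)) +
        (s.ord H - s.ord (X.red true (c1 • y))) + -(s₀.ord H - s₀.ord (X.red true (c1 • y))) =
        s.ord H - s₀.ord H := by ring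
    rwa [e3] at e2
  -- so the reduction at `∞` is a power, `rb` not being modular of level `M`
  have hpow1 : ∃ g : modularFunctionFieldFullC kA M, H = g ^ p := by
    refine (exists_pow_or_class hp hH0 hall).resolve_right fun h => hmod ?_
    obtain ⟨z, hz, hpz, hev⟩ := h
    refine modularOf_of_redEigen_away hrb hq hA hqM hqp hu hz hpz fun i _ _ => hev _ _ ?_
    have hlN : ¬ i.1 ∣ M * q := fun h => i.2.2.1 (h.mul_right p)
    exact powEq_nbar hA hrep hn i.2.1 hlN (hT i x hx)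
  -- the norm to level `M`
  obtain ⟨hd0, hcl⟩ := id hD'
  obtain ⟨W, hW⟩ := exists_root_normAlong (heckeAlphaBar Qb M q) hn
    (D := ⟨D', hd0⟩) (by
      rw [hcl]
      exact (push_eq_zero_away hrb hq hqM hqp hu hmod hpx fun i => hT i x hx).1) hy' hdiv'
  obtain ⟨g0', hg0'⟩ := exists_pow_false_of_norm hA hn hy' g1 g0 (inv_int_of_le X hy' hdiv' hle g1)
    (inv_int_of_le X hy' hdiv' hle g0) ⟨W, hW⟩ hpow1
  obtain ⟨g1', hg1'⟩ := hpow1
  obtain ⟨g, hg, y'', H', hWit⟩ := X.exists_wit hn hy' hdiv' fun b => by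
    cases b
    exacts [⟨a0, g0', g0, hg0'⟩, ⟨a1, g1', g1, hg1'⟩]
  exact ⟨_, y'', H', hD'.add_divOf hg, hWit⟩

omit [Fact p.Prime] in
/-- Sums of classes with power reductions have power reductions. -/
theorem hasWit_add {x z : JZero (M * q)} (hx : HasWit X p x) (hz : HasWit X p z) :
    HasWit X p (x + z) := by
  obtain ⟨D, y, H, hD, hW⟩ := hx
  obtain ⟨D', y', H', hD', hW'⟩ := hz
  exact ⟨_, _, _, hD.add hD', X.wit_mul hW hW'⟩

omit [Fact p.Prime] in
/-- Symmetries of the two reductions preserve power reductions. -/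
theorem hasWit_sym (Θ : Sym X) {x : JZero (M * q)} (hx : HasWit X p x) : HasWit X p (Θ.s • x) := by
  obtain ⟨D, y, H, hD, hW⟩ := hx
  exact ⟨_, _, _, hD.smul Θ.s, Θ.wit hW⟩

/-- **A Frobenius acts as `- q w` on the classes with power reductions.** -/
theorem frobenius_add_eq_zero (Φ W : Sym X) (hΦe : Φ.e true = true) (hWe : W.e true ≠ true)
    (hpt : ∀ s ∈ X.S, Φ.pt s = W.pt s) (hΦb : ∀ a, Φ.base a = a ^ q) (hWb : ∀ a, W.base a = a)
    (hnk : (p : kA) ≠ 0) {x : JZero (M * q)} (hx : HasWit X p x) :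
    Φ.s • x + q • W.s • x = 0 := by
  obtain ⟨D, y, H, hD, hW⟩ := hx
  exact Degen.frobenius_add_eq_zero_of_wit Φ W hΦe hWe hpt hΦb hWb hnk hD hW

/-- **The eigen group is zero.** If `rb` is not modular of level `M`, a quadratic group in `J₀(M q)`
on which the good Hecke operators act through the traces of `rb` is zero, `q ≢ 1 (mod p)` being
residually unramified. -/
theorem eq_bot_of_eigen (hrb : IsSemistableResidual p rb) (hp2 : p ≠ 2) (hqp : q ≠ p)
    (hq1 : (q : ZMod p) ≠ 1) (hu : IsResUnramified p rb q) (hA : A.LiesOverPrime q)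
    (hS : X.S = SS M q hq hqM hA)
    (h12 : ∀ s ∈ SS M q hq hqM hA, s.ord (hbar M q hq hqM hA) = 12) (hN : X.Node (q : Qb))
    (hin : ∀ σ ∈ A.inertiaSubgroupIn ℚ, ∃ Θ : Sym X, Θ.s = galAut M q σ ∧ Θ.e = Equiv.refl Bool ∧
      ∀ b, Θ.τ b = 1)
    (W : Sym X) (hWs : W.s = alAut M q hq hqM) (hWe : W.e true ≠ true) (hWb : ∀ a, W.base a = a)
    {φ : Γℚ} (hφ : A.IsFrobeniusAt φ q) (Φ : Sym X) (hΦs : Φ.s = galAut M q φ)
    (hΦe : Φ.e true = true) (hΦb : ∀ a, Φ.base a = a ^ q) (hpt : ∀ s ∈ X.S, Φ.pt s = W.pt s)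
    (hmod : ¬ ModularOf p rb M) {V : AddSubgroup (JZero (M * q))} (hV : IsQuadratic rb V)
    (hT : ∀ i : GoodPrime rb (M * q), ∀ x ∈ V,
      heckeOperatorBar (M * q) i.toPrimes x = (trFrob rb i.1).val • x) : V = ⊥ := by
  have hp : p.Prime := Fact.out
  have hnk : (p : kA) ≠ 0 := by
    rw [Ne, CharP.cast_eq_zero_iff kA q]
    exact fun h => hqp ((Nat.prime_dvd_prime_iff_eq hq hp).mp h)
  set a := alAut M q hq hqM
  let w : JZero (M * q) →+ JZero (M * q) := DistribSMul.toAddMonoidHom _ a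
  have hww : ∀ z, w (w z) = z := fun z => by
    change a • a • z = z
    rw [← mul_smul, alAut_mul_self, one_smul]
  have hσw : ∀ (σ : Γℚ) z, σ • w z = w (σ • z) := fun σ z => by
    change galAut M q σ • a • z = a • galAut M q σ • z
    rw [← mul_smul, ← mul_smul, galAut_alAut]
  have hwit : ∀ z ∈ V, HasWit X p z := fun z hz =>
    hasWit_of_eigen hrb hp2 hqp hu hA hS h12 hN hin hmod hV hT hz
  -- `U = V + w V` is quadratic, stable under `w`, and on it `φ = - q w`
  let U : AddSubgroup (JZero (M * q)) := V ⊔ V.map w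
  have hUmem : ∀ z, z ∈ U ↔ ∃ u ∈ V, ∃ v ∈ V, u + w v = z := fun z => by
    rw [AddSubgroup.mem_sup]
    constructor
    · rintro ⟨u, hu', _, ⟨v, hv, rfl⟩, rfl⟩
      exact ⟨u, hu', v, hv, rfl⟩
    · rintro ⟨u, hu', v, hv, rfl⟩
      exact ⟨u, hu', _, ⟨v, hv, rfl⟩, rfl⟩
  have hUwit : ∀ z ∈ U, HasWit X p z := fun z hz => by
    obtain ⟨u, hu', v, hv, rfl⟩ := (hUmem z).mp hz
    refine hasWit_add (hwit u hu') ?_
    have := hasWit_sym W (hwit v hv)
    rwa [hWs] at this
  have hU : IsQuadratic rb U := hV.sup_map rb hσw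
  have hwU : ∀ z ∈ U, w z ∈ U := fun z hz => by
    obtain ⟨u, hu', v, hv, rfl⟩ := (hUmem z).mp hz
    exact (hUmem _).mpr ⟨v, hv, u, hu', by rw [map_add, hww, add_comm]⟩
  have hfrob : ∀ z ∈ U, φ • z + q • w z = 0 := fun z hz => by
    have := frobenius_add_eq_zero Φ W hΦe hWe hpt hΦb hWb hnk (hUwit z hz)
    rwa [hΦs, hWs] at this
  have hdet : (rb φ : Matrix (Fin 2) (Fin 2) (ZMod p)).det = (q : ZMod p) := by
    rw [hrb.det_eq, Fermat.CFT.cycChar_frobenius hq hqp hA hφ]
  have hqv : ∀ z ∈ U, (q : ZMod p).val • z = q • z := fun z hz => by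
    rw [ZMod.val_natCast, ← nsmul_eq_mod_nsmul _ (hU.torsion z hz)]
  -- a piece of `U` on which `φ` is a scalar `c = ± q` is zero
  have key : ∀ (c : ZMod p) (f : JZero (M * q) →+ JZero (M * q)),
      (∀ (σ : Γℚ) z, σ • f z = f (σ • z)) → c * c = (q : ZMod p) * q →
      (∀ z ∈ U, f z = 0 → φ • z = c.val • z) → ∀ z ∈ U, f z = 0 → z = 0 := by
    intro c f hf hc hscal
    have hK : IsQuadratic rb (U ⊓ f.ker) :=
      ⟨fun z hz => hU.torsion z hz.1, fun σ z hz => ⟨hU.stable σ z hz.1, by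
        change f (σ • z) = 0
        rw [← hf, show f z = 0 from hz.2];
          exact map_zero (DistribSMul.toAddMonoidHom (JZero (M * q)) σ)⟩,
        fun σ z hz => hU.relation σ z hz.1, fun σ hσ z hz => hU.ker_fixed σ hσ z hz.1⟩
    have hbot := eq_bot_of_scalar_sq hrb.surjective hK hdet hq1 hc fun z hz => hscal z hz.1 hz.2
    exact fun z hz hz0 => (AddSubgroup.eq_bot_iff_forall _).mp hbot z ⟨hz, hz0⟩
  refine V.eq_bot_iff_forall.mpr fun x hx => ?_
  -- both parts `x ± w x` vanish, and `p` is odd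
  have hxU : x ∈ U := AddSubgroup.mem_sup_left hx
  have hplus : x + w x = 0 := by
    refine key (-(q : ZMod p)) (AddMonoidHom.id _ - w) (fun σ z => ?_) (by ring)
      (fun z hz hf => ?_) _ (U.add_mem hxU (hwU x hxU)) ?_
    · change σ • (z - w z) = σ • z - w (σ • z)
      rw [smul_sub, hσw]
    · have hwz : z = w z := sub_eq_zero.mp hf
      have h := hfrob z hz
      rw [← hwz, ← hqv z hz] at h
      rw [eq_neg_of_add_eq_zero_left h, neg_eq_iff_add_eq_zero, ← val_nsmul_add (hU.torsion z hz),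
        add_neg_cancel, ZMod.val_zero, zero_nsmul]
    · change x + w x - w (x + w x) = 0
      rw [map_add, hww]
      abel
  have hminus : x - w x = 0 := by
    refine key (q : ZMod p) (AddMonoidHom.id _ + w) (fun σ z => ?_) rfl
      (fun z hz hf => ?_) _ (U.sub_mem hxU (hwU x hxU)) ?_
    · change σ • (z + w z) = σ • z + w (σ • z)
      rw [smul_add, hσw]
    · have hwz : w z = -z := eq_neg_of_add_eq_zero_right hf
      have h := hfrob z hz
      rw [hwz, neg_nsmul, ← sub_eq_add_neg, sub_eq_zero] at h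
      rw [h, hqv z hz]
    · change x - w x + w (x - w x) = 0
      rw [map_sub, hww]
      abel
  have h2 : (2 : ℕ) • x = 0 := by
    rw [two_nsmul]
    linear_combination (norm := abel) hplus + hminus
  refine eq_zero_of_val_nsmul (hV.torsion x hx) (a := ((2 : ℕ) : ZMod p)) ?_ ?_
  · rw [Ne, ZMod.natCast_eq_zero_iff]
    exact fun h => hp2 ((Nat.prime_dvd_prime_iff_eq hp Nat.prime_two).mp h)
  · rw [ZMod.val_natCast, ← nsmul_eq_mod_nsmul _ (hV.torsion x hx)]
    exact h2

end Fermat.BAD.AtQ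

end
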