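import Fermat.Agent.BAD.AtQ.Engine
import Fermat.Agent.BAD.X0.Torsion
import Fermat.Agent.BAD.Inst.Node
import Fermat.Agent.BAD.Inst.Order

/-!
# Mazur's principle at `q ≠ p`

`mazurStep`: an unramified prime `q ≢ 1 (mod p)` leaves a squarefree level which keeps a prime
`≡ 11 (mod 12)`. The eigen classes of level `M q` are zero unless the system is modular of level
`M` (`Engine`). Used to find the base level of lifting (`GR/RT/Lift/Base`) and for lowering
(`GR/RT/Lowering`).
-/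

set_option autoImplicit false

noncomputable section

namespace Fermat.BAD.AtQ

open Fermat.MC Fermat.JAC.X0 Fermat.RED Fermat.RED.Model Fermat.BAD.X0 Fermat.GR.RT Fermat.BAD.AtP

local notation "Qb" => AlgebraicClosure ℚ
local notation "Γℚ" => (AlgebraicClosure ℚ ≃ₐ[ℚ] AlgebraicClosure ℚ)

variable {p : ℕ} [Fact p.Prime] {rb : Γℚ →* GL (Fin 2) (ZMod p)}

/-- **Mazur's principle**, for a system of a level dividing `N`. -/
theorem mazurStep_of_dvd (h2 : 2 < p) (hrb : IsSemistableResidual p rb) {L N q : ℕ}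
    (hN : Squarefree N) (hq : q.Prime) (hqN : q ∣ N) (hqp : q ≠ p) (hq1 : (q : ZMod p) ≠ 1)
    (hu : IsResUnramified p rb q) (hr : ∃ r, r.Prime ∧ r ≠ q ∧ r % 12 = 11 ∧ r ∣ N) (hLN : L ∣ N)
    (hmod : ModularOf p rb L) : ModularOf p rb (N / q) := by
  obtain ⟨M, rfl⟩ := hqN
  rw [Nat.mul_div_cancel_left _ hq.pos]
  obtain ⟨r, hr, hrq, hr12, hrN⟩ := hr
  have hqM : ¬ q ∣ M := hq.coprime_iff_not_dvd.mp (Nat.squarefree_mul_iff.mp hN).1
  have hrM : r ∣ M := (hr.dvd_mul.mp hrN).resolve_left fun h =>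
    hrq ((Nat.prime_dvd_prime_iff_eq hr hq).mp h)
  have : NeZero M := ⟨right_ne_zero_of_mul hN.ne_zero⟩
  have : NeZero q := ⟨hq.ne_zero⟩
  have : NeZero (q * M) := ⟨hN.ne_zero⟩
  have : NeZero L := ⟨hmod.1.ne'⟩
  have : NeZero (M * q) := ⟨mul_ne_zero (NeZero.ne M) hq.ne_zero⟩
  have : Fact q.Prime := ⟨hq⟩
  have : FF.IsFunctionField Qb (FN (M * q) Qb) := MC.isFunctionField_FN (M * q) embC
  have : FF.IsFunctionField Qb (FN M Qb) := MC.isFunctionField_FN M embC
  obtain ⟨A, hA⟩ := Fermat.CFT.exists_place hq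
  have := charP_residue hq hA
  have := isAlgClosed_residue A
  have := Cusps.isFunctionField (k := IsLocalRing.ResidueField A) (M := M)
    (natCast_ne_zero_residue A hq hA hqM)
  obtain ⟨φ, hφ⟩ := Fermat.CFT.exists_isFrobeniusAt hq hA
  have hne := NoElliptic.of_prime_dvd hr hr12 hrM
  set X := degen M q hq hqM hA hne
  have h12 : ∀ s ∈ SS M q hq hqM hA, s.ord (hbar M q hq hqM hA) = 12 := fun s hs =>
    Inst.ord_hbar_eq M q hq hqM hA X rfl hne hs
  by_contra hnot
  obtain ⟨V, hV0, hV, hT⟩ := exists_w0_away (M := M * q) (L := L) (M * q) (dvd_mul_right _ p)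
    (mul_ne_zero (NeZero.ne M) hq.ne_zero) (by rwa [mul_comm]) hrb hmod
  -- the eigen group of the system, which the engine shows to be zero
  refine hV0 (eq_bot_of_eigen (X := X) hrb (by omega) hqp hq1 hu hA rfl h12
    (Inst.node M q hq hqM hA X rfl rfl (fun _ _ => rfl) h12) (fun σ hσ => ?_)
    (alSym M q hq hqM hA hne) rfl (fun h => Bool.false_ne_true h) (fun _ => rfl) hφ
    (galSym M q hq hqM hA hne hφ.mem_decompositionSubgroup) rfl rfl (fun a => ?_)
    (fun s hs => pt_frobenius M q hq hqM hA hne hφ hs) hnot hV hT)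
  · obtain ⟨hd, he⟩ := residueAut_eq_refl hσ
    exact ⟨galSym M q hq hqM hA hne hd, rfl, rfl, fun _ => resAut_eq_one M he⟩
  · change residueAut hφ.mem_decompositionSubgroup a = a ^ q
    rw [residueAut_eq_frobenius hφ, frobeniusEquiv_apply, frobenius_def]

/-- **Mazur's principle.** A residually unramified prime `q ≠ p`, `q ≢ 1 (mod p)`, can be removed
from a squarefree level of modularity which keeps another prime `≡ 11 (mod 12)`. -/
theorem mazurStep (h2 : 2 < p) (hrb : IsSemistableResidual p rb) {N q : ℕ} (hN : Squarefree N)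
    (hq : q.Prime) (hqN : q ∣ N) (hqp : q ≠ p) (hq1 : (q : ZMod p) ≠ 1)
    (hu : IsResUnramified p rb q) (hr : ∃ r, r.Prime ∧ r ≠ q ∧ r % 12 = 11 ∧ r ∣ N)
    (hmod : ModularOf p rb N) : ModularOf p rb (N / q) :=
  mazurStep_of_dvd h2 hrb hN hq hqN hqp hq1 hu hr dvd_rfl hmod

end Fermat.BAD.AtQ

end
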