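import Fermat.Agent.FLAT.Fix
import Fermat.Agent.BAD.Mono.Congr

/-!
# An inertia element with primitive tame character on a root of `q`

`exists_tame`: for primes `p ≠ q` some inertia element at `q` moves a `p`-th root of `q` by a root
of unity whose residue is primitive.
-/

set_option autoImplicit false

noncomputable section

open IsLocalRing

namespace Fermat.BAD.AtQ

open Fermat.EC.Val

local notation "Qb" => AlgebraicClosure ℚ
local notation "Γℚ" => (AlgebraicClosure ℚ ≃ₐ[ℚ] AlgebraicClosure ℚ)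

/-- **A tame generator at `q` for the exponent `p ≠ q`.** -/
theorem exists_tame {p q : ℕ} (hp : p.Prime) (hq : q.Prime) (hqp : q ≠ p)
    {A : ValuationSubring Qb} (hA : A.LiesOverPrime q) [CharP (ResidueField A) q] :
    ∃ (σ : Γℚ) (_ : σ ∈ A.inertiaSubgroupIn ℚ) (r : Qb) (hr : r ≠ 0)
      (hσ : ∀ c, c ≠ 0 → σ c / c ∈ A),
      r ^ p = (q : Qb) ∧ IsPrimitiveRoot (tameChar (residue A) σ hσ r hr) p := by
  have := Fact.mk hp
  have h : IsPlace A q := ⟨hq, hA⟩
  obtain ⟨r, hr⟩ := IsAlgClosed.exists_pow_nat_eq (q : Qb) hp.pos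
  have hq0 : (q : Qb) ≠ 0 := Nat.cast_ne_zero.mpr hq.ne_zero
  have hr0 : r ≠ 0 := fun e => hq0 (by rw [← hr, e, zero_pow hp.ne_zero])
  -- some inertia moves the root, as `1 / p` is not an integer
  obtain ⟨σ, hσI, hσr⟩ : ∃ σ ∈ A.inertiaSubgroupIn ℚ, σ r ≠ r := by
    by_contra hall
    push Not at hall
    obtain ⟨k, hk⟩ := Fermat.FLAT.exists_int_ord h hr0 hall
    have h1 := ord_pow h (x := r) p
    rw [hr, ord_q h, hk] at h1
    have h2 : (p : ℤ) * k = 1 := by exact_mod_cast h1.symm
    have h3 : (p : ℤ) ∣ 1 := Dvd.intro k h2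
    exact hp.ne_one (Nat.eq_one_of_dvd_one (by exact_mod_cast h3))
  have hin : IsInert A σ := isInert_of_mem_inertia hσI
  have hσ : ∀ c, c ≠ 0 → σ c / c ∈ A := fun c hc => by
    have hc' : Is A q c (ord A q c) := ⟨hc, rfl⟩
    have h1 := (hin.is_apply h hc').div h hc'
    rw [sub_self] at h1
    exact (mem_iff_ge h _).mpr h1.ge
  refine ⟨σ, hσI, r, hr0, hσ, hr, ?_⟩
  -- so `u = σ r / r` is a `p`-th root of unity other than one
  set u : A := ⟨σ r / r, hσ r hr0⟩
  have hu : u ^ p = 1 := Subtype.ext (by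
    change (σ r / r) ^ p = 1
    rw [div_pow, ← map_pow, hr, map_natCast, div_self hq0])
  change IsPrimitiveRoot (residue A u) p
  refine IsPrimitiveRoot.iff_orderOf.mpr (orderOf_eq_prime (by rw [← map_pow, hu, map_one]) ?_)
  -- whose residue is not one, as `p ≠ q`
  intro hu1
  have hne : u - 1 ≠ 0 := fun e => hσr (by
    have e' := congrArg Subtype.val (sub_eq_zero.mp e)
    exact (div_eq_one_iff_eq hr0).mp e')
  have hs : ∑ i ∈ Finset.range p, u ^ i = 0 := by
    refine (mul_eq_zero.mp ?_).resolve_right hne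
    rw [geom_sum_mul, hu, sub_self]
  have h2 := congrArg (residue A) hs
  simp only [map_sum, map_pow, hu1, one_pow, map_zero, Finset.sum_const, Finset.card_range,
    nsmul_eq_mul, mul_one] at h2
  rw [CharP.cast_eq_zero_iff (ResidueField A) q] at h2
  exact hqp ((Nat.prime_dvd_prime_iff_eq hq hp).mp h2)

end Fermat.BAD.AtQ
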